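import Fermat.Agent.S55.G.Spec

/-!
# G-CYC: the cyclic layer of degree `p` (helper119)

`CyclicLayerSpec` follows formally from the first and the second inequality.
-/

set_option autoImplicit false

open CategoryTheory groupCohomology

namespace Fermat.Agent.S55.G.UpH119

/-- **G-CYC** from G-FI and G-SI. -/
theorem cyclicLayer_of (hFI : FirstInequalitySpec) (hSI : SecondInequalitySpec) :
    CyclicLayerSpec := by
  intro p hp hp2 S G L _ _ _ _ _ _ hpS hcard hunr hζ
  have hS : S.Nonempty := ⟨_, hpS⟩
  obtain ⟨hf1, hf2, hc⟩ := hFI p hp2 S G L hS hcard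
  obtain ⟨_, hd⟩ := hSI p hp2 S G L hpS hcard hunr hζ
  have hpos1 : 0 < Nat.card (groupCohomology (CRep S G L) 1) := Nat.card_pos
  rw [hc] at hd
  have h1 : Nat.card (groupCohomology (CRep S G L) 1) = 1 := by
    have hle : p * Nat.card (groupCohomology (CRep S G L) 1) ≤ p :=
      Nat.le_of_dvd hp.out.pos hd
    have : Nat.card (groupCohomology (CRep S G L) 1) ≤ 1 := by
      by_contra hcon
      rw [not_le] at hcon
      have : p * 2 ≤ p * Nat.card (groupCohomology (CRep S G L) 1) :=
        Nat.mul_le_mul_left p hcon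
      have hp0 := hp.out.pos
      omega
    omega
  refine ⟨?_, ?_⟩
  · rw [ModuleCat.isZero_iff_subsingleton]
    exact (Nat.card_eq_one_iff_unique.1 h1).1
  · rw [hc, h1, mul_one]

end Fermat.Agent.S55.G.UpH119
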