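import Fermat.Agent.S55.G.UpH119.Desc
import Fermat.Agent.S55.G.UpH119.Cyc
import Fermat.Agent.S55.T.UglyH954

/-!
# G-UP: the upper bound for `p`-groups (helper119)

`pClassUpper_of : CyclicLayerSpec → DescentSpec → PClassUpperSpec`:
for a finite `p`-group `G` acting faithfully on a number field `L`, unramified outside `S ∋ p`,
with `μ_p ⊂ L^G`, and every subgroup `H ≤ G`:
`H¹(H, C_S(L)) = 0` and `|H²(H, C_S(L))|` divides `|H|`.

Proof: dévissage along a normal subgroup `K ⊴ H` of index `p`; the cyclic layer `H ⧸ K` acts on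
the fixed field `L^K`, where `CyclicLayerSpec` applies (`Quot.lean`), and
`C_S(L)^K ≅ C_S(L^K)` by `DescentSpec` (`Desc.lean`).  The counting in degree 2 is
`T.UglySpec` (helper954, on main).
-/

set_option autoImplicit false
set_option linter.style.haveILetI false
set_option linter.unusedSectionVars false

open scoped NumberField TensorProduct Pointwise
open IsDedekindDomain CategoryTheory groupCohomology

noncomputable section

namespace Fermat.Agent.S55.G.UpH119

section Layer

variable (S : Finset Nat.Primes) (G L : Type) [Group G] [Finite G] [Field L] [NumberField L]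
  [MulSemiringAction G L] [FaithfulSMul G L] (N : Subgroup G) [N.Normal]

/-- The cyclic layer `G ⧸ N` of order `p`: `H¹(G ⧸ N, C_S(L)^N) = 0` and
`|H²(G ⧸ N, C_S(L)^N)|` divides `p`. -/
theorem quot_layer (hC : CyclicLayerSpec) (hD : DescentSpec) (p : ℕ) [hp : Fact p.Prime]
    (hp2 : p ≠ 2) (hpS : (⟨p, hp.out⟩ : Nat.Primes) ∈ S) (hunr : IsUnramOut S G L)
    (hζ : HasFixedRootOfUnity p G L) (hcard : Nat.card (G ⧸ N) = p) :
    Limits.IsZero (groupCohomology ((CRep S G L).quotientToInvariants N) 1) ∧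
    T.CardDvd (groupCohomology ((CRep S G L).quotientToInvariants N) 2) p := by
  letI := quotAct G L N
  haveI := faithfulSMul_quot G L N
  obtain ⟨h1, h2⟩ := hC p hp2 S (G ⧸ N) (FixN G L N) hpS hcard (isUnramOut_quot S G L N hunr)
    (hasFixedRootOfUnity_quot G L N p hζ)
  obtain ⟨e1⟩ := nonempty_iso_quot S G L N hD ⟨_, hpS⟩ hunr 1
  obtain ⟨e2⟩ := nonempty_iso_quot S G L N hD ⟨_, hpS⟩ hunr 2
  refine ⟨Limits.IsZero.of_iso h1 e1.symm, ?_⟩
  have hfin : Finite (groupCohomology (CRep S (G ⧸ N) (FixN G L N)) 2) :=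
    Nat.finite_of_card_ne_zero (by rw [h2]; exact hp.out.ne_zero)
  exact T.H954.cardDvd_of_iso e2.symm ⟨hfin, by rw [h2]⟩

end Layer

section Induction

variable (S : Finset Nat.Primes) (L : Type) [Field L] [NumberField L]

/-- `H¹(G, C_S(L)) = 0` for `p`-groups, by induction on the order. -/
theorem h1_isZero (hC : CyclicLayerSpec) (hD : DescentSpec) (p : ℕ) [hp : Fact p.Prime]
    (hp2 : p ≠ 2) (hpS : (⟨p, hp.out⟩ : Nat.Primes) ∈ S) :
    ∀ (n : ℕ) (G : Type) [Group G] [Finite G] [MulSemiringAction G L] [FaithfulSMul G L],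
      Nat.card G = p ^ n → IsUnramOut S G L → HasFixedRootOfUnity p G L →
      Limits.IsZero (groupCohomology (CRep S G L) 1) := by
  intro n
  induction n with
  | zero =>
    intro G _ _ _ _ hG _ _
    rw [pow_zero] at hG
    rw [ModuleCat.isZero_iff_subsingleton]
    exact ⟨fun a b => (Fermat.Agent.S55.H954.H1_eq_zero_of_card_eq_one (CRep S G L) hG a).trans
      (Fermat.Agent.S55.H954.H1_eq_zero_of_card_eq_one (CRep S G L) hG b).symm⟩
  | succ n ih =>
    intro G _ _ _ _ hG hunr hζ
    obtain ⟨K, hK⟩ := Sylow.exists_subgroup_card_pow_prime (G := G) p (n := n)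
      (by rw [hG]; exact pow_dvd_pow p (Nat.le_succ n))
    have hidx : K.index = p := by
      have h := K.card_mul_index
      rw [hK, hG, pow_succ] at h
      exact Nat.eq_of_mul_eq_mul_left (pow_pos hp.out.pos n) h
    haveI hKn : K.Normal := Subgroup.normal_of_index_eq_minFac_card (by
      rw [hidx, hG, Nat.pow_minFac (Nat.succ_ne_zero n), hp.out.minFac_eq])
    have hq : Nat.card (G ⧸ K) = p := by rw [← Subgroup.index_eq_card]; exact hidx
    have hKz : Limits.IsZero (groupCohomology (CRep S K L) 1) :=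
      ih K hK (fun w hw g hg x => hunr w hw (g : G) hg x)
        (by obtain ⟨ζ, h1, h2⟩ := hζ; exact ⟨ζ, h1, fun g => h2 (g : G)⟩)
    have hQz := (quot_layer S G L K hC hD p hp2 hpS hunr hζ hq).1
    have hK0 : ∀ x : H1 (Rep.res K.subtype (CRep S G L)), x = 0 := fun x =>
      (ModuleCat.isZero_iff_subsingleton.1 hKz).elim x 0
    have hQ0 : ∀ x : H1 ((CRep S G L).quotientToInvariants K), x = 0 := fun x =>
      (ModuleCat.isZero_iff_subsingleton.1 hQz).elim x 0
    rw [ModuleCat.isZero_iff_subsingleton]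
    exact ⟨fun a b =>
      (Fermat.Agent.S55.H954.H1_eq_zero_of_normal (CRep S G L) K hK0 hQ0 a).trans
        (Fermat.Agent.S55.H954.H1_eq_zero_of_normal (CRep S G L) K hK0 hQ0 b).symm⟩

end Induction

/-- **G-UP** (`PClassUpperSpec`) from G-CYC and G-DESC. -/
theorem pClassUpper_of (hC : CyclicLayerSpec) (hD : DescentSpec) : PClassUpperSpec := by
  intro p hp hp2 S G L _ _ _ _ _ _ hpS hG hunr hζ
  have hsub : ∀ H : Subgroup G, ∃ n, Nat.card H = p ^ n := fun H =>
    IsPGroup.iff_card.1 (hG.to_subgroup H)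
  have hunrH : ∀ H : Subgroup G, IsUnramOut S H L := fun H w hw g hg x =>
    hunr w hw (g : G) hg x
  have hζH : ∀ H : Subgroup G, HasFixedRootOfUnity p H L := fun H => by
    obtain ⟨ζ, h1, h2⟩ := hζ
    exact ⟨ζ, h1, fun g => h2 (g : G)⟩
  have h1 : ∀ H : Subgroup G,
      Limits.IsZero (groupCohomology (T.resSub (CRep S G L) H) 1) := by
    intro H
    obtain ⟨n, hn⟩ := hsub H
    exact h1_isZero S L hC hD p hp2 hpS n H hn (hunrH H) (hζH H)
  have h2 : ∀ (H : Subgroup G) (K : Subgroup H) [K.Normal], (Nat.card (H ⧸ K)).Prime →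
      T.CardDvd (groupCohomology ((T.resSub (CRep S G L) H).quotientToInvariants K) 2)
        (Nat.card (H ⧸ K)) := by
    intro H K _ hprime
    obtain ⟨n, hn⟩ := hsub H
    have hdvd : Nat.card (H ⧸ K) ∣ p ^ n := by
      rw [← hn, ← Subgroup.index_eq_card]
      exact K.index_dvd_card
    have hqp : Nat.card (H ⧸ K) = p :=
      (Nat.prime_dvd_prime_iff_eq hprime hp.out).1 (hprime.dvd_of_dvd_pow hdvd)
    rw [hqp]
    exact (quot_layer S H L K hC hD p hp2 hpS (hunrH H) (hζH H) hqp).2
  have hugly := T.H954.ugly ℤ G (CRep S G L) h1 h2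
  exact fun H => ⟨h1 H, hugly H⟩

/-- **G-UP** from the two inequalities and descent. -/
theorem pClassUpper_of_inequalities (hFI : FirstInequalitySpec) (hSI : SecondInequalitySpec)
    (hD : DescentSpec) : PClassUpperSpec :=
  pClassUpper_of (cyclicLayer_of hFI hSI) hD

end Fermat.Agent.S55.G.UpH119
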