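import Fermat.Agent.S55.G.UpH119.Quot

/-!
# G-UP, part 3: `C_S(L)^N ≅ C_S(L^N)` on cohomology (helper119)

From `DescentSpec` we get, for `N ⊴ G`, isomorphisms
`Hⁿ(G ⧸ N, C_S(L^N)) ≅ Hⁿ(G ⧸ N, C_S(L)^N)`.
-/

set_option autoImplicit false
set_option linter.style.haveILetI false
set_option linter.unusedSectionVars false

open scoped NumberField TensorProduct Pointwise
open IsDedekindDomain CategoryTheory groupCohomology

noncomputable section

namespace Fermat.Agent.S55.G.UpH119

variable (S : Finset Nat.Primes) (G L : Type) [Group G] [Finite G] [Field L] [NumberField L]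
  [MulSemiringAction G L] [FaithfulSMul G L] (N : Subgroup G) [N.Normal]

/-- The output of `DescentSpec` for the fixed field of `N`. -/
theorem exists_descent (hD : DescentSpec) (hS : S.Nonempty) (hunr : IsUnramOut S G L) :
    letI := quotAct G L N
    ∃ ι : CS S (FixN G L N) →+ CS S L,
      Function.Injective ι ∧
      (∀ (g : G) (c : CS S (FixN G L N)),
        ι (cRepr S (G ⧸ N) (FixN G L N) (g : G ⧸ N) c) = cRepr S G L g (ι c)) ∧
      (∀ c : CS S L, (∀ n : N, cRepr S G L (n : G) c = c) ↔ c ∈ Set.range ι) := by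
  letI := quotAct G L N
  obtain ⟨ι, h1, h2, h3, -⟩ := hD S G L (FixN G L N) N hS hunr
    (mem_range_algebraMap_fixN_iff G L N) (algebraMap_quotAct_smul G L N)
  exact ⟨ι, h1, h2, h3⟩

/-- `Hⁿ(G ⧸ N, C_S(L^N)) ≅ Hⁿ(G ⧸ N, C_S(L)^N)`. -/
theorem nonempty_iso_quot (hD : DescentSpec) (hS : S.Nonempty) (hunr : IsUnramOut S G L)
    (n : ℕ) :
    letI := quotAct G L N
    Nonempty (groupCohomology (CRep S (G ⧸ N) (FixN G L N)) n ≅
      groupCohomology ((CRep S G L).quotientToInvariants N) n) := by
  letI := quotAct G L N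
  obtain ⟨ι, hinj, heq, hrange⟩ := exists_descent S G L N hD hS hunr
  -- the linear equivalence onto the invariants
  let f : CS S (FixN G L N) →ₗ[ℤ]
      ↥(Representation.invariants ((cRepr S G L).comp N.subtype)) :=
    LinearMap.codRestrict _ ι.toIntLinearMap (fun c => by
      intro m
      exact (hrange (ι c)).2 ⟨c, rfl⟩ m)
  have hf : Function.Bijective f := by
    constructor
    · intro a b hab
      exact hinj (congrArg Subtype.val hab)
    · rintro ⟨c, hc⟩
      obtain ⟨a, ha⟩ := (hrange c).1 (fun m => hc m)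
      exact ⟨a, Subtype.ext ha⟩
  let e' : CS S (FixN G L N) ≃ₗ[ℤ]
      ↥(Representation.invariants ((cRepr S G L).comp N.subtype)) :=
    LinearEquiv.ofBijective f hf
  refine ⟨groupCohomology.mapIso (A := (CRep S G L).quotientToInvariants N)
    (B := CRep S (G ⧸ N) (FixN G L N)) (MulEquiv.refl (G ⧸ N)) e' (fun q => ?_) n⟩
  induction q using QuotientGroup.induction_on with | @H g =>
  ext c
  exact heq g c

end Fermat.Agent.S55.G.UpH119
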