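import Fermat.Agent.S55.G.Spec

/-!
# G-UP, part 2: the quotient `G ⧸ N` acting on the fixed field `L^N` (helper119)

For a normal subgroup `N ⊴ G` of a group acting on a field `L`, the fixed field
`FixN G L N = L^N` carries an action of `G ⧸ N`.  We check the hypotheses needed to apply the
Specs of layer G to the pair `(G ⧸ N, L^N)`: faithfulness, `μ_p ⊂ (L^N)^{G/N}` and
unramifiedness outside `S`.
-/

set_option autoImplicit false
set_option linter.style.haveILetI false
set_option linter.unusedSectionVars false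

open scoped NumberField TensorProduct Pointwise
open IsDedekindDomain CategoryTheory

noncomputable section

namespace Fermat.Agent.S55.G.UpH119

section Action

variable (G L : Type) [Group G] [Field L] [MulSemiringAction G L] (N : Subgroup G)

/-- The fixed field `L^N`. -/
abbrev FixN : Type := ↥(FixedPoints.subfield N L)

variable [N.Normal]

theorem smul_mem_fixN (g : G) (x : FixN G L N) : g • (x : L) ∈ FixedPoints.subfield N L := by
  intro n
  have h := x.2 ⟨g⁻¹ * (n : G) * g, Subgroup.Normal.conj_mem' ‹N.Normal› _ n.2 g⟩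
  have h' : (g⁻¹ * (n : G) * g) • (x : L) = (x : L) := h
  calc n • g • (x : L) = ((n : G) * g) • (x : L) := by rw [mul_smul]; rfl
    _ = (g * (g⁻¹ * (n : G) * g)) • (x : L) := by congr 1; group
    _ = g • (x : L) := by rw [mul_smul, h']

/-- The action of `G ⧸ N` on the fixed field `L^N` (a definition, NOT a global instance). -/
@[reducible] def quotAct : MulSemiringAction (G ⧸ N) (FixN G L N) where
  smul := fun q x => Quotient.liftOn' q (fun g => (⟨g • (x : L), smul_mem_fixN G L N g x⟩ :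
      FixN G L N)) (by
    intro a b hab
    apply Subtype.ext
    have hab' : a⁻¹ * b ∈ N := QuotientGroup.leftRel_apply.1 hab
    have h := x.2 ⟨a⁻¹ * b, hab'⟩
    have h' : (a⁻¹ * b) • (x : L) = (x : L) := h
    show a • (x : L) = b • (x : L)
    calc a • (x : L) = a • ((a⁻¹ * b) • (x : L)) := by rw [h']
      _ = b • (x : L) := by rw [← mul_smul, mul_inv_cancel_left])
  one_smul := fun x => Subtype.ext (one_smul G (x : L))
  mul_smul := fun q₁ q₂ x => Quotient.inductionOn₂' q₁ q₂ fun g h =>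
    Subtype.ext (mul_smul g h (x : L))
  smul_zero := fun q => Quotient.inductionOn' q fun g => Subtype.ext (smul_zero g)
  smul_add := fun q x y => Quotient.inductionOn' q fun g =>
    Subtype.ext (smul_add g (x : L) (y : L))
  smul_one := fun q => Quotient.inductionOn' q fun g => Subtype.ext (smul_one g)
  smul_mul := fun q x y => Quotient.inductionOn' q fun g =>
    Subtype.ext (MulSemiringAction.smul_mul g (x : L) (y : L))

theorem coe_quotAct_smul (g : G) (x : FixN G L N) :
    letI := quotAct G L N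
    (((g : G ⧸ N) • x : FixN G L N) : L) = g • (x : L) := rfl

theorem algebraMap_quotAct_smul (g : G) (x : FixN G L N) :
    letI := quotAct G L N
    algebraMap (FixN G L N) L ((g : G ⧸ N) • x) = g • algebraMap (FixN G L N) L x := rfl

omit [N.Normal] in
theorem mem_range_algebraMap_fixN_iff (x : L) :
    (∀ n : N, (n : G) • x = x) ↔ x ∈ (algebraMap (FixN G L N) L).range := by
  constructor
  · intro h
    exact ⟨⟨x, fun n => h n⟩, rfl⟩
  · rintro ⟨y, rfl⟩ n
    exact y.2 n

end Action

section Hyps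

variable (S : Finset Nat.Primes) (G L : Type) [Group G] [Finite G] [Field L] [NumberField L]
  [MulSemiringAction G L] [FaithfulSMul G L] (N : Subgroup G) [N.Normal]

/-- An element of `G` fixing `L^N` pointwise lies in `N`. -/
theorem mem_of_forall_fixN_smul_eq (g : G) (h : ∀ x : FixN G L N, g • (x : L) = (x : L)) :
    g ∈ N := by
  have key := IsGaloisGroup.fixingSubgroup_fixedPoints G (FixedPoints.subfield G L) L N
  rw [← key, mem_fixingSubgroup_iff]
  intro x hx
  exact h ⟨x, fun n => hx n⟩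

/-- `G ⧸ N` acts faithfully on `L^N`. -/
theorem faithfulSMul_quot :
    letI := quotAct G L N
    FaithfulSMul (G ⧸ N) (FixN G L N) := by
  letI := quotAct G L N
  refine ⟨fun {q₁ q₂} h => ?_⟩
  induction q₁ using QuotientGroup.induction_on with | @H a =>
  induction q₂ using QuotientGroup.induction_on with | @H b =>
  rw [QuotientGroup.eq]
  apply mem_of_forall_fixN_smul_eq G L N
  intro x
  have := congrArg Subtype.val (h x)
  rw [coe_quotAct_smul, coe_quotAct_smul] at this
  rw [mul_smul, ← this, inv_smul_smul]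

omit [Finite G] [NumberField L] [FaithfulSMul G L] in
/-- `μ_p ⊂ L^G` implies `μ_p ⊂ (L^N)^{G/N}`. -/
theorem hasFixedRootOfUnity_quot (p : ℕ) (h : HasFixedRootOfUnity p G L) :
    letI := quotAct G L N
    HasFixedRootOfUnity p (G ⧸ N) (FixN G L N) := by
  letI := quotAct G L N
  obtain ⟨ζ, hζ, hfix⟩ := h
  refine ⟨⟨ζ, fun n => hfix n⟩, ?_, fun q => ?_⟩
  · exact IsPrimitiveRoot.of_map_of_injective (f := (FixedPoints.subfield N L).subtype)
      hζ (FixedPoints.subfield N L).subtype.injective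
  · induction q using QuotientGroup.induction_on with | @H g =>
    exact Subtype.ext (hfix g)

/-- **Unramifiedness descends to the quotient**: if `L/L^G` is unramified outside `S`, so is
`L^N/L^G` (for the group `G ⧸ N`). -/
theorem isUnramOut_quot (h : IsUnramOut S G L) :
    letI := quotAct G L N
    IsUnramOut S (G ⧸ N) (FixN G L N) := by
  letI := quotAct G L N
  intro w' hw' q hq x
  -- compatibility of the actions on integers
  have hact : ∀ (g : G) (a : 𝓞 (FixN G L N)),
      algebraMap (𝓞 (FixN G L N)) (𝓞 L) ((g : G ⧸ N) • a) =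
        g • algebraMap (𝓞 (FixN G L N)) (𝓞 L) a := by
    intro g a
    apply Subtype.ext
    rfl
  -- the hypothesis for `q⁻¹`
  have hq' : ∀ a : 𝓞 (FixN G L N), q⁻¹ • a - a ∈ w'.asIdeal := by
    intro a
    have := hq (q⁻¹ • a)
    rw [smul_inv_smul] at this
    have h2 : q⁻¹ • a - a = -(a - q⁻¹ • a) := by ring
    rw [h2]
    exact neg_mem this
  have hmem : ∀ a : 𝓞 (FixN G L N), q⁻¹ • a ∈ w'.asIdeal ↔ a ∈ w'.asIdeal := by
    intro a
    constructor
    · intro h1
      have := sub_mem h1 (hq' a)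
      simpa using this
    · intro h1
      have := add_mem (hq' a) h1
      simpa using this
  obtain ⟨g, rfl⟩ := QuotientGroup.mk_surjective q
  -- a prime `P` of `B` over `w'`
  haveI : w'.asIdeal.IsPrime := w'.isPrime
  obtain ⟨P, hP, hPw⟩ := Ideal.exists_ideal_over_prime_of_isIntegral_of_isDomain (S := 𝓞 L)
    w'.asIdeal (by
      rw [(RingHom.injective_iff_ker_eq_bot _).1
        (FaithfulSMul.algebraMap_injective (𝓞 (FixN G L N)) (𝓞 L))]
      exact bot_le)
  haveI : IsGaloisGroup N (FixN G L N) L := IsGaloisGroup.fixedPoints N L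
  haveI : IsGaloisGroup N (𝓞 (FixN G L N)) (𝓞 L) :=
    IsGaloisGroup.of_isFractionRing N (𝓞 (FixN G L N)) (𝓞 L) (FixN G L N) L
  haveI : Algebra.IsInvariant (𝓞 (FixN G L N)) (𝓞 L) N := IsGaloisGroup.isInvariant
  haveI : SMulCommClass N (𝓞 (FixN G L N)) (𝓞 L) := IsGaloisGroup.commutes
  -- `g • P` lies over `w'` too
  have hgP : (g • P).under (𝓞 (FixN G L N)) = P.under (𝓞 (FixN G L N)) := by
    ext a
    rw [Ideal.under_def, Ideal.under_def, Ideal.mem_comap, Ideal.mem_comap,
      Ideal.mem_pointwise_smul_iff_inv_smul_mem, ← hact, ← Ideal.mem_comap, hPw,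
      QuotientGroup.mk_inv, hmem, ← hPw, Ideal.mem_comap]
  haveI hgPprime : (g • P).IsPrime := hP.smul g
  obtain ⟨n, hn⟩ := Algebra.IsInvariant.exists_smul_of_under_eq (𝓞 (FixN G L N)) (𝓞 L) N P
    (g • P) hgP.symm
  -- `g₁ := n⁻¹ g` stabilises `P`
  have hg₁P : ((n : G)⁻¹ * g) • P = P := by
    rw [mul_smul, hn]
    exact inv_smul_smul (n : G) P
  haveI hLO : P.LiesOver w'.asIdeal := ⟨hPw.symm⟩
  -- the automorphism of the residue field induced by `g₁`
  let σ₀ : (𝓞 L ⧸ P) ≃+* (𝓞 L ⧸ P) :=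
    Ideal.quotientEquiv P P (MulSemiringAction.toRingEquiv G (𝓞 L) ((n : G)⁻¹ * g)) hg₁P.symm
  have hσ₀ : ∀ b : 𝓞 L, σ₀ (Ideal.Quotient.mk P b) =
      Ideal.Quotient.mk P (((n : G)⁻¹ * g) • b) := fun b => rfl
  have hqn : (((n : G)⁻¹ * g : G) : G ⧸ N) = (g : G ⧸ N) := by
    rw [QuotientGroup.eq]
    have : ((n : G)⁻¹ * g)⁻¹ * g = g⁻¹ * (n : G) * g := by group
    rw [this]
    exact Subgroup.Normal.conj_mem' ‹N.Normal› _ n.2 g
  let σ : (𝓞 L ⧸ P) ≃ₐ[𝓞 (FixN G L N) ⧸ w'.asIdeal] (𝓞 L ⧸ P) :=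
    AlgEquiv.ofRingEquiv (f := σ₀) (by
      intro r
      obtain ⟨a, rfl⟩ := Ideal.Quotient.mk_surjective r
      show σ₀ (Ideal.Quotient.mk P (algebraMap (𝓞 (FixN G L N)) (𝓞 L) a)) =
        Ideal.Quotient.mk P (algebraMap (𝓞 (FixN G L N)) (𝓞 L) a)
      rw [hσ₀, Ideal.Quotient.eq, ← hact, hqn, ← map_sub, ← Ideal.mem_comap, hPw]
      exact hq a)
  obtain ⟨n', hn'⟩ := Ideal.Quotient.stabilizerHom_surjective N w'.asIdeal P σ
  -- `g₂ := n'⁻¹ n⁻¹ g` lies in the inertia group of `P`
  have hkey : ∀ b : 𝓞 L, ((((n' : N) : G))⁻¹ * ((n : G)⁻¹ * g)) • b - b ∈ P := by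
    intro b
    have h1 : Ideal.Quotient.mk P (((n' : N) : G) • b) =
        Ideal.Quotient.mk P (((n : G)⁻¹ * g) • b) := by
      have := congrArg (fun f => f (Ideal.Quotient.mk P b)) hn'
      exact this
    rw [Ideal.Quotient.eq] at h1
    have hst : ((n' : N) : G) • P = P := n'.2
    have h2 : ((n' : N) : G)⁻¹ • ((((n' : N) : G)) • b - ((n : G)⁻¹ * g) • b) ∈ P := by
      rw [← Ideal.mem_pointwise_smul_iff_inv_smul_mem, hst]
      exact h1
    have h3 : (((n' : N) : G)⁻¹ * ((n : G)⁻¹ * g)) • b - b =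
        -(((n' : N) : G)⁻¹ • ((((n' : N) : G)) • b - ((n : G)⁻¹ * g) • b)) := by
      rw [smul_sub, inv_smul_smul, mul_smul]
      ring
    rw [h3]
    exact neg_mem h2
  have hPbot : P ≠ ⊥ := by
    rintro rfl
    apply w'.ne_bot
    rw [← hPw]
    exact Ideal.comap_bot_of_injective _ (FaithfulSMul.algebraMap_injective _ _)
  have hnotS : ¬ IsAbove S L ⟨P, hP, hPbot⟩ := by
    rintro ⟨q, hqS, hqP⟩
    apply hw'
    refine ⟨q, hqS, ?_⟩
    rw [← hPw, Ideal.mem_comap, map_natCast]
    exact hqP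
  have htriv := h ⟨P, hP, hPbot⟩ hnotS _ hkey
  -- conclude
  apply Subtype.ext
  rw [coe_quotAct_smul]
  have h4 := htriv (x : L)
  have h5 : g • (x : L) = ((n : G) * ((n' : N) : G)) •
      ((((n' : N) : G)⁻¹ * ((n : G)⁻¹ * g)) • (x : L)) := by
    rw [← mul_smul]
    congr 1
    group
  rw [h5, h4]
  exact x.2 (n * n')

end Hyps

end Fermat.Agent.S55.G.UpH119
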