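import Fermat.Agent.S55.G.Spec

/-!
# G-UP, part 1: passing to subgroups (helper119)
-/

set_option autoImplicit false

open scoped NumberField TensorProduct
open IsDedekindDomain CategoryTheory groupCohomology

noncomputable section

namespace Fermat.Agent.S55.G.UpH119

variable (S : Finset Nat.Primes) (G L : Type) [Group G] [Field L] [NumberField L]
  [MulSemiringAction G L] (H : Subgroup G)

theorem jRepr_subgroup (h : H) : jRepr H S L h = jRepr G S L (h : G) := rfl

theorem primeSMul_subgroup (h : H) (w : HeightOneSpectrum (𝓞 L)) :
    primeSMul H h w = primeSMul G (h : G) w := rfl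

theorem primeOutMap_subgroup (h : H) (w : PrimeOut S L) :
    primeOutMap S H L h w = primeOutMap S G L (h : G) w := rfl

theorem divRepr_subgroup (h : H) : divRepr S H L h = divRepr S G L (h : G) := rfl

theorem jdRepr_subgroup (h : H) : jdRepr S H L h = jdRepr S G L (h : G) := rfl

theorem cRepr_subgroup (h : H) : cRepr S H L h = cRepr S G L (h : G) := rfl

end Fermat.Agent.S55.G.UpH119
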